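import Mathlib

/-!
# Symmetric formulas for x-coordinates of `P + Q` and `P - Q` on a Weierstrass curve

For affine points `P = (x₁, y₁)`, `Q = (x₂, y₂)` with `x₁ ≠ x₂`:
* `(x(P+Q) + x(P-Q)) (x₁-x₂)² = 2x₁x₂(x₁+x₂) + b₂x₁x₂ + b₄(x₁+x₂) + b₆`
* `x(P+Q) x(P-Q) (x₁-x₂)² = x₁²x₂² - b₄x₁x₂ - b₆(x₁+x₂) - b₈`
and the duplication formula.
-/

set_option autoImplicit false

namespace S05H65

open WeierstrassCurve

section Formulas

variable {F : Type*} [Field F] {W : WeierstrassCurve.Affine F}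

lemma sym_sum_formula {x₁ y₁ x₂ y₂ : F} (h₁ : W.Equation x₁ y₁) (h₂ : W.Equation x₂ y₂)
    (hx : x₁ ≠ x₂) :
    (W.addX x₁ x₂ ((y₁ - y₂) / (x₁ - x₂)) + W.addX x₁ x₂ ((y₁ - W.negY x₂ y₂) / (x₁ - x₂)))
        * (x₁ - x₂) ^ 2
      = 2 * x₁ * x₂ * (x₁ + x₂) + W.b₂ * x₁ * x₂ + W.b₄ * (x₁ + x₂) + W.b₆ := by
  have hd : x₁ - x₂ ≠ 0 := sub_ne_zero.mpr hx
  rw [Affine.equation_iff] at h₁ h₂
  simp only [Affine.addX, Affine.negY, WeierstrassCurve.b₂, WeierstrassCurve.b₄,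
    WeierstrassCurve.b₆]
  field_simp
  linear_combination 2 * h₁ + 2 * h₂

lemma sym_prod_formula {x₁ y₁ x₂ y₂ : F} (h₁ : W.Equation x₁ y₁) (h₂ : W.Equation x₂ y₂)
    (hx : x₁ ≠ x₂) :
    (W.addX x₁ x₂ ((y₁ - y₂) / (x₁ - x₂)) * W.addX x₁ x₂ ((y₁ - W.negY x₂ y₂) / (x₁ - x₂)))
        * (x₁ - x₂) ^ 2
      = x₁ ^ 2 * x₂ ^ 2 - W.b₄ * x₁ * x₂ - W.b₆ * (x₁ + x₂) - W.b₈ := by
  have hd : x₁ - x₂ ≠ 0 := sub_ne_zero.mpr hx
  rw [Affine.equation_iff] at h₁ h₂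
  simp only [Affine.addX, Affine.negY, WeierstrassCurve.b₄,
    WeierstrassCurve.b₆, WeierstrassCurve.b₈]
  field_simp
  grind

/-- `ψ₂² = 4x³ + b₂x² + 2b₄x + b₆` on the curve. -/
lemma psi_sq_formula {x y : F} (h : W.Equation x y) :
    (y - W.negY x y) ^ 2 = 4 * x ^ 3 + W.b₂ * x ^ 2 + 2 * W.b₄ * x + W.b₆ := by
  rw [Affine.equation_iff] at h
  simp only [Affine.negY, WeierstrassCurve.b₂, WeierstrassCurve.b₄, WeierstrassCurve.b₆]
  linear_combination 4 * h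

lemma dup_formula {x y : F} (h : W.Equation x y) (hy : y ≠ W.negY x y) :
    W.addX x x ((3 * x ^ 2 + 2 * W.a₂ * x + W.a₄ - W.a₁ * y) / (y - W.negY x y))
        * (4 * x ^ 3 + W.b₂ * x ^ 2 + 2 * W.b₄ * x + W.b₆)
      = x ^ 4 - W.b₄ * x ^ 2 - 2 * W.b₆ * x - W.b₈ := by
  have hd : y - W.negY x y ≠ 0 := sub_ne_zero.mpr hy
  rw [← psi_sq_formula h]
  generalize hψ : y - W.negY x y = ψ at hd ⊢
  have hψ' : ψ = 2 * y + W.a₁ * x + W.a₃ := by
    rw [← hψ, Affine.negY]; ring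
  rw [Affine.equation_iff] at h
  have key : W.addX x x ((3 * x ^ 2 + 2 * W.a₂ * x + W.a₄ - W.a₁ * y) / ψ) * ψ ^ 2
      = (3 * x ^ 2 + 2 * W.a₂ * x + W.a₄ - W.a₁ * y) ^ 2
        + W.a₁ * (3 * x ^ 2 + 2 * W.a₂ * x + W.a₄ - W.a₁ * y) * ψ - (W.a₂ + 2 * x) * ψ ^ 2 := by
    simp only [Affine.addX]
    field_simp
    ring
  rw [key, hψ']
  simp only [WeierstrassCurve.b₄, WeierstrassCurve.b₆, WeierstrassCurve.b₈]
  linear_combination (-(W.a₁ ^ 2) - 4 * W.a₂ - 8 * x - W.a₁ ^ 2 + W.a₁^2) * h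

end Formulas

section Points

variable {F : Type*} [Field F] [DecidableEq F] {W : WeierstrassCurve.Affine F}

/-- The x-coordinate of a point, with junk value `0` at the point at infinity. -/
def px : W.Point → F
  | .zero => 0
  | .some x _ _ => x

@[simp] lemma px_zero : px (0 : W.Point) = 0 := rfl

@[simp] lemma px_some {x y : F} (h : W.Nonsingular x y) : px (Affine.Point.some x y h) = x := rfl

@[simp] lemma px_neg (P : W.Point) : px (-P) = px P := by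
  cases P <;> rfl

lemma eq_or_eq_neg_of_px_eq {P Q : W.Point} (hP : P ≠ 0) (hQ : Q ≠ 0) (h : px P = px Q) :
    P = Q ∨ P = -Q := by
  rcases P with _ | ⟨x₁, y₁, h₁⟩
  · exact absurd rfl hP
  rcases Q with _ | ⟨x₂, y₂, h₂⟩
  · exact absurd rfl hQ
  exact Affine.Point.X_eq_iff.mp h

lemma add_ne_zero_of_px_ne {P Q : W.Point} (h : px P ≠ px Q) (hP : P ≠ 0) (hQ : Q ≠ 0) :
    P + Q ≠ 0 := by
  intro h0
  have : P = -Q := eq_neg_of_add_eq_zero_left h0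
  rw [this, px_neg] at h
  exact h rfl

lemma sub_ne_zero_of_px_ne {P Q : W.Point} (h : px P ≠ px Q) : P - Q ≠ 0 := by
  intro h0
  rw [sub_eq_zero] at h0
  exact h (h0 ▸ rfl)

/-- Sum formula: `(x(P+Q) + x(P-Q)) (x₁-x₂)² = 2x₁x₂(x₁+x₂) + b₂x₁x₂ + b₄(x₁+x₂) + b₆`. -/
theorem px_add_add_px_sub {P Q : W.Point} (hP : P ≠ 0) (hQ : Q ≠ 0) (h : px P ≠ px Q) :
    (px (P + Q) + px (P - Q)) * (px P - px Q) ^ 2
      = 2 * px P * px Q * (px P + px Q) + W.b₂ * px P * px Q + W.b₄ * (px P + px Q) + W.b₆ := by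
  rcases P with _ | ⟨x₁, y₁, h₁⟩
  · exact absurd rfl hP
  rcases Q with _ | ⟨x₂, y₂, h₂⟩
  · exact absurd rfl hQ
  simp only [px_some] at h ⊢
  rw [sub_eq_add_neg, Affine.Point.neg_some, Affine.Point.add_of_X_ne h,
    Affine.Point.add_of_X_ne h, px_some, px_some, Affine.slope_of_X_ne h, Affine.slope_of_X_ne h]
  exact sym_sum_formula h₁.1 h₂.1 h

/-- Product formula: `x(P+Q) x(P-Q) (x₁-x₂)² = x₁²x₂² - b₄x₁x₂ - b₆(x₁+x₂) - b₈`. -/
theorem px_add_mul_px_sub {P Q : W.Point} (hP : P ≠ 0) (hQ : Q ≠ 0) (h : px P ≠ px Q) :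
    (px (P + Q) * px (P - Q)) * (px P - px Q) ^ 2
      = px P ^ 2 * px Q ^ 2 - W.b₄ * px P * px Q - W.b₆ * (px P + px Q) - W.b₈ := by
  rcases P with _ | ⟨x₁, y₁, h₁⟩
  · exact absurd rfl hP
  rcases Q with _ | ⟨x₂, y₂, h₂⟩
  · exact absurd rfl hQ
  simp only [px_some] at h ⊢
  rw [sub_eq_add_neg, Affine.Point.neg_some, Affine.Point.add_of_X_ne h,
    Affine.Point.add_of_X_ne h, px_some, px_some, Affine.slope_of_X_ne h, Affine.slope_of_X_ne h]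
  exact sym_prod_formula h₁.1 h₂.1 h

/-- The polynomial `ψ₂² = 4x³ + b₂x² + 2b₄x + b₆`. -/
def psi2sq (W : WeierstrassCurve.Affine F) (x : F) : F :=
  4 * x ^ 3 + W.b₂ * x ^ 2 + 2 * W.b₄ * x + W.b₆

/-- The numerator `x⁴ - b₄x² - 2b₆x - b₈` of the duplication formula. -/
def dupNum (W : WeierstrassCurve.Affine F) (x : F) : F :=
  x ^ 4 - W.b₄ * x ^ 2 - 2 * W.b₆ * x - W.b₈

/-- `P + P = 0` iff `ψ₂²(x(P)) = 0` (for `P ≠ 0`). -/
theorem add_self_eq_zero_iff {P : W.Point} (hP : P ≠ 0) :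
    P + P = 0 ↔ psi2sq W (px P) = 0 := by
  rcases P with _ | ⟨x, y, h⟩
  · exact absurd rfl hP
  simp only [px_some, psi2sq]
  rw [← psi_sq_formula h.1]
  constructor
  · intro h0
    by_contra hne
    have hy : y ≠ W.negY x y := fun hy => hne (by rw [← hy]; ring)
    rw [Affine.Point.add_self_of_Y_ne hy] at h0
    exact Affine.Point.some_ne_zero _ h0
  · intro h0
    have hy : y = W.negY x y := by
      have := pow_eq_zero_iff (n := 2) (by norm_num) |>.mp h0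
      exact sub_eq_zero.mp this
    exact Affine.Point.add_self_of_Y_eq hy

/-- Duplication formula: `x(2P) ψ₂²(x) = x⁴ - b₄x² - 2b₆x - b₈`. -/
theorem px_add_self {P : W.Point} (hP : P ≠ 0) (h2 : P + P ≠ 0) :
    px (P + P) * psi2sq W (px P) = dupNum W (px P) := by
  rcases P with _ | ⟨x, y, h⟩
  · exact absurd rfl hP
  have hy : y ≠ W.negY x y := by
    intro hy
    exact h2 (Affine.Point.add_self_of_Y_eq hy)
  rw [Affine.Point.add_self_of_Y_ne hy]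
  simp only [px_some, psi2sq, dupNum]
  rw [Affine.slope_of_Y_ne rfl hy]
  exact dup_formula h.1 hy

end Points

end S05H65
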