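import Mathlib

/-!
# A light additive-valuation framework

`AVal K G`: a function `w : K → G` into a linearly ordered additive commutative group, with junk
value at `0`, multiplicative and ultrametric on nonzero elements.  Linear (in)equalities in `G` are
discharged by `grind`.  Zero is handled through the three predicates
* `Ex x g` : `x ≠ 0 ∧ w x = g`
* `Ge x g` : `x = 0 ∨ g ≤ w x`
* `Gt x g` : `x = 0 ∨ g < w x`.
-/

set_option autoImplicit false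

namespace S05H65

/-- Additive valuation on a field with values in an ordered abelian group (junk value at `0`). -/
structure AVal (K : Type*) [Field K] (G : Type*) [AddCommGroup G] [LinearOrder G]
    [IsOrderedAddMonoid G] where
  /-- the valuation function -/
  w : K → G
  w_mul' : ∀ x y : K, x ≠ 0 → y ≠ 0 → w (x * y) = w x + w y
  w_add' : ∀ x y : K, x ≠ 0 → y ≠ 0 → x + y ≠ 0 → min (w x) (w y) ≤ w (x + y)

namespace AVal

variable {K : Type*} [Field K] {G : Type*} [AddCommGroup G] [LinearOrder G] [IsOrderedAddMonoid G]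
  (V : AVal K G)

lemma w_one : V.w 1 = 0 := by
  have := V.w_mul' 1 1 one_ne_zero one_ne_zero
  rw [mul_one] at this
  grind

lemma w_neg_one : V.w (-1) = 0 := by
  have h := V.w_mul' (-1) (-1) (by simp) (by simp)
  rw [neg_mul_neg, mul_one, V.w_one] at h
  grind

lemma w_neg (x : K) : V.w (-x) = V.w x := by
  rcases eq_or_ne x 0 with rfl | hx
  · simp
  · have := V.w_mul' (-1) x (by simp) hx
    rw [neg_one_mul, V.w_neg_one] at this
    grind

lemma w_inv {x : K} (hx : x ≠ 0) : V.w x⁻¹ = -V.w x := by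
  have := V.w_mul' x x⁻¹ hx (inv_ne_zero hx)
  rw [mul_inv_cancel₀ hx, V.w_one] at this
  grind

lemma w_mul {x y : K} (hx : x ≠ 0) (hy : y ≠ 0) : V.w (x * y) = V.w x + V.w y :=
  V.w_mul' x y hx hy

lemma w_div {x y : K} (hx : x ≠ 0) (hy : y ≠ 0) : V.w (x / y) = V.w x - V.w y := by
  rw [div_eq_mul_inv, V.w_mul hx (inv_ne_zero hy), V.w_inv hy]
  grind

lemma w_pow {x : K} (hx : x ≠ 0) (n : ℕ) : V.w (x ^ n) = n • V.w x := by
  induction n with
  | zero => simp [V.w_one]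
  | succ n ih =>
    rw [pow_succ, V.w_mul (pow_ne_zero n hx) hx, ih, succ_nsmul]

lemma w_add_ge {x y : K} (hx : x ≠ 0) (hy : y ≠ 0) (hxy : x + y ≠ 0) :
    min (V.w x) (V.w y) ≤ V.w (x + y) :=
  V.w_add' x y hx hy hxy

/-- If `w x < w y` then `x + y ≠ 0` and `w (x + y) = w x`. -/
lemma w_add_eq_left {x y : K} (hx : x ≠ 0) (hy : y ≠ 0) (h : V.w x < V.w y) :
    x + y ≠ 0 ∧ V.w (x + y) = V.w x := by
  have hxy : x + y ≠ 0 := by
    intro h0
    have : x = -y := eq_neg_of_add_eq_zero_left h0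
    rw [this, V.w_neg] at h
    exact lt_irrefl _ h
  refine ⟨hxy, ?_⟩
  have h1 := V.w_add_ge hx hy hxy
  have h2 := V.w_add_ge hxy (neg_ne_zero.mpr hy) (by simpa using hx)
  rw [add_neg_cancel_right, V.w_neg] at h2
  grind

/-- Exact valuation: `x ≠ 0` and `w x = g`. -/
def Ex (x : K) (g : G) : Prop := x ≠ 0 ∧ V.w x = g

/-- `w x ≥ g`, where `w 0 = ∞`. -/
def Ge (x : K) (g : G) : Prop := x = 0 ∨ g ≤ V.w x

/-- `w x > g`, where `w 0 = ∞`. -/
def Gt (x : K) (g : G) : Prop := x = 0 ∨ g < V.w x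

variable {V}
variable {x y : K} {g h : G}

lemma Ex.ne_zero (hx : V.Ex x g) : x ≠ 0 := hx.1
lemma Ex.eq (hx : V.Ex x g) : V.w x = g := hx.2

lemma ex_of_ne (hx : x ≠ 0) : V.Ex x (V.w x) := ⟨hx, rfl⟩

lemma ex_one : V.Ex (1 : K) 0 := ⟨one_ne_zero, V.w_one⟩

lemma Ex.ge (hx : V.Ex x g) : V.Ge x g := Or.inr hx.2.ge
lemma Ex.ge' (hx : V.Ex x g) (hg : h ≤ g) : V.Ge x h := Or.inr (hx.2 ▸ hg)
lemma Ex.gt' (hx : V.Ex x g) (hg : h < g) : V.Gt x h := Or.inr (hx.2 ▸ hg)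
lemma Gt.ge (hx : V.Gt x g) : V.Ge x g := hx.imp id le_of_lt
lemma Ge.mono (hx : V.Ge x g) (hg : h ≤ g) : V.Ge x h := hx.imp id (le_trans hg)
lemma Gt.mono (hx : V.Gt x g) (hg : h ≤ g) : V.Gt x h := hx.imp id (lt_of_le_of_lt hg)
lemma Ge.gt (hx : V.Ge x g) (hg : h < g) : V.Gt x h := hx.imp id (lt_of_lt_of_le hg)
lemma Ex.congr (hx : V.Ex x g) (hg : g = h) : V.Ex x h := hg ▸ hx

lemma ge_zero' : V.Ge (0 : K) g := Or.inl rfl
lemma gt_zero' : V.Gt (0 : K) g := Or.inl rfl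

lemma Ge.le_of_ne (hx : V.Ge x g) (h0 : x ≠ 0) : g ≤ V.w x := hx.resolve_left h0
lemma Gt.lt_of_ne (hx : V.Gt x g) (h0 : x ≠ 0) : g < V.w x := hx.resolve_left h0

lemma Ex.neg (hx : V.Ex x g) : V.Ex (-x) g := ⟨neg_ne_zero.mpr hx.1, by rw [V.w_neg, hx.2]⟩
lemma Ge.neg (hx : V.Ge x g) : V.Ge (-x) g := by
  rcases hx with rfl | hx
  · exact Or.inl neg_zero
  · exact Or.inr (by rwa [V.w_neg])
lemma Gt.neg (hx : V.Gt x g) : V.Gt (-x) g := by
  rcases hx with rfl | hx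
  · exact Or.inl neg_zero
  · exact Or.inr (by rwa [V.w_neg])

lemma Ex.mul (hx : V.Ex x g) (hy : V.Ex y h) : V.Ex (x * y) (g + h) :=
  ⟨mul_ne_zero hx.1 hy.1, by rw [V.w_mul hx.1 hy.1, hx.2, hy.2]⟩

lemma Ex.inv (hx : V.Ex x g) : V.Ex x⁻¹ (-g) :=
  ⟨inv_ne_zero hx.1, by rw [V.w_inv hx.1, hx.2]⟩

lemma Ex.div (hx : V.Ex x g) (hy : V.Ex y h) : V.Ex (x / y) (g - h) :=
  ⟨div_ne_zero hx.1 hy.1, by rw [V.w_div hx.1 hy.1, hx.2, hy.2]⟩

lemma Ex.pow (hx : V.Ex x g) (n : ℕ) : V.Ex (x ^ n) (n • g) :=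
  ⟨pow_ne_zero n hx.1, by rw [V.w_pow hx.1, hx.2]⟩

lemma Ex.sq (hx : V.Ex x g) : V.Ex (x ^ 2) (g + g) := by
  have := hx.pow 2
  rwa [two_nsmul] at this

lemma Ge.mul (hx : V.Ge x g) (hy : V.Ge y h) : V.Ge (x * y) (g + h) := by
  rcases hx with rfl | hx
  · exact Or.inl (zero_mul _)
  rcases hy with rfl | hy
  · exact Or.inl (mul_zero _)
  by_cases hx0 : x = 0
  · exact Or.inl (by rw [hx0, zero_mul])
  by_cases hy0 : y = 0
  · exact Or.inl (by rw [hy0, mul_zero])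
  exact Or.inr (by rw [V.w_mul hx0 hy0]; exact add_le_add hx hy)

lemma Gt.mul_ge (hx : V.Gt x g) (hy : V.Ge y h) : V.Gt (x * y) (g + h) := by
  rcases hx with rfl | hx
  · exact Or.inl (zero_mul _)
  rcases hy with rfl | hy
  · exact Or.inl (mul_zero _)
  by_cases hx0 : x = 0
  · exact Or.inl (by rw [hx0, zero_mul])
  by_cases hy0 : y = 0
  · exact Or.inl (by rw [hy0, mul_zero])
  exact Or.inr (by rw [V.w_mul hx0 hy0]; exact add_lt_add_of_lt_of_le hx hy)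

lemma Ge.mul_gt (hx : V.Ge x g) (hy : V.Gt y h) : V.Gt (x * y) (g + h) := by
  have := hy.mul_ge hx
  rwa [mul_comm, add_comm] at this

lemma Ge.sq (hx : V.Ge x g) : V.Ge (x ^ 2) (g + g) := by
  rw [pow_two]; exact hx.mul hx

lemma Gt.sq (hx : V.Gt x g) : V.Gt (x ^ 2) (g + g) := by
  rw [pow_two]; exact hx.mul_ge hx.ge

lemma Ge.div (hx : V.Ge x g) (hy : V.Ex y h) : V.Ge (x / y) (g - h) := by
  rw [div_eq_mul_inv, sub_eq_add_neg]
  exact hx.mul hy.inv.ge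

lemma Gt.div (hx : V.Gt x g) (hy : V.Ex y h) : V.Gt (x / y) (g - h) := by
  rw [div_eq_mul_inv, sub_eq_add_neg]
  exact hx.mul_ge hy.inv.ge

lemma Ge.add (hx : V.Ge x g) (hy : V.Ge y g) : V.Ge (x + y) g := by
  by_cases hx0 : x = 0
  · rw [hx0, zero_add]; exact hy
  by_cases hy0 : y = 0
  · rw [hy0, add_zero]; exact hx
  by_cases hxy : x + y = 0
  · exact Or.inl hxy
  have := V.w_add_ge hx0 hy0 hxy
  have h1 := hx.le_of_ne hx0
  have h2 := hy.le_of_ne hy0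
  exact Or.inr (le_trans (le_min h1 h2) this)

lemma Gt.add (hx : V.Gt x g) (hy : V.Gt y g) : V.Gt (x + y) g := by
  by_cases hx0 : x = 0
  · rw [hx0, zero_add]; exact hy
  by_cases hy0 : y = 0
  · rw [hy0, add_zero]; exact hx
  by_cases hxy : x + y = 0
  · exact Or.inl hxy
  have := V.w_add_ge hx0 hy0 hxy
  have h1 := hx.lt_of_ne hx0
  have h2 := hy.lt_of_ne hy0
  exact Or.inr (lt_of_lt_of_le (lt_min h1 h2) this)

lemma Ge.sub (hx : V.Ge x g) (hy : V.Ge y g) : V.Ge (x - y) g := by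
  rw [sub_eq_add_neg]; exact hx.add hy.neg

lemma Gt.sub (hx : V.Gt x g) (hy : V.Gt y g) : V.Gt (x - y) g := by
  rw [sub_eq_add_neg]; exact hx.add hy.neg

/-- Dominant term: exact plus strictly larger valuation is exact. -/
lemma Ex.add_gt (hx : V.Ex x g) (hy : V.Gt y g) : V.Ex (x + y) g := by
  by_cases hy0 : y = 0
  · rw [hy0, add_zero]; exact hx
  have hlt : V.w x < V.w y := by rw [hx.2]; exact hy.lt_of_ne hy0
  obtain ⟨h1, h2⟩ := V.w_add_eq_left hx.1 hy0 hlt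
  exact ⟨h1, h2.trans hx.2⟩

lemma Ex.gt_add (hx : V.Ex x g) (hy : V.Gt y g) : V.Ex (y + x) g := by
  rw [add_comm]; exact hx.add_gt hy

lemma Ex.sub_gt (hx : V.Ex x g) (hy : V.Gt y g) : V.Ex (x - y) g := by
  rw [sub_eq_add_neg]; exact hx.add_gt hy.neg

lemma Ex.gt_sub (hx : V.Ex x g) (hy : V.Gt y g) : V.Ex (y - x) g := by
  rw [sub_eq_add_neg]; exact hx.neg.gt_add hy

lemma Ex.mul_ge (hx : V.Ex x g) (hy : V.Ge y h) : V.Ge (x * y) (g + h) := hx.ge.mul hy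

/-- From `Ge` and nonzero-ness get a bound usable by `grind`. -/
lemma Ge.ex (hx : V.Ge x g) (h0 : x ≠ 0) : ∃ g', g ≤ g' ∧ V.Ex x g' :=
  ⟨V.w x, hx.le_of_ne h0, h0, rfl⟩

lemma Ex.unique (hx : V.Ex x g) (hx' : V.Ex x h) : g = h := hx.2.symm.trans hx'.2

lemma Ex.not_gt (hx : V.Ex x g) (hx' : V.Gt x h) : h < g := by
  have := hx'.lt_of_ne hx.1
  rwa [hx.2] at this

lemma Ex.le_of_ge (hx : V.Ex x g) (hx' : V.Ge x h) : h ≤ g := by
  have := hx'.le_of_ne hx.1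
  rwa [hx.2] at this

end AVal

end S05H65
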