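import Fermat.Agent.S05.H65.Rho
import Fermat.Agent.S05.H27.C2
import Fermat.Agent.S05.H27.OfValuation

/-!
# (C*): a `p`-torsion point near the node is, up to sign, a translate of a point of the
identity component by any point `Z` with `ξ(Z) = e^M`.
-/

set_option autoImplicit false

namespace S05H65

open WeierstrassCurve

section

variable {K : Type*} [Field K] [DecidableEq K] [CharZero K]
  {G : Type*} [AddCommGroup G] [LinearOrder G] [IsOrderedAddMonoid G]
  {W : WeierstrassCurve.Affine K} {V : AVal K G} {s d b : K} {h : G}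

omit [CharZero K] in
lemma rel_simN {h a b c d' : G} (hr : AVal.Rel h a b c d') :
    (S05H27.SimN (h + h) c (a + b) ∧ S05H27.SimN (h + h) d' (a - b)) ∨
      (S05H27.SimN (h + h) d' (a + b) ∧ S05H27.SimN (h + h) c (a - b)) := by
  have key1 : ∀ x : G, x = max (a - b) (b - a) → S05H27.SimN (h + h) x (a - b) := by
    intro x hx
    rcases max_choice (a - b) (b - a) with h1 | h1
    · exact ⟨0, Or.inl (by rw [hx, h1]; simp)⟩
    · exact ⟨0, Or.inr (by rw [hx, h1]; simp)⟩
  have key2 : ∀ x : G, x = min (a + b) (h + h - a - b) → S05H27.SimN (h + h) x (a + b) := by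
    intro x hx
    rcases min_choice (a + b) (h + h - a - b) with h1 | h1
    · exact ⟨0, Or.inl (by rw [hx, h1]; simp)⟩
    · exact ⟨1, Or.inr (by rw [hx, h1, one_smul]; abel)⟩
  rcases hr with ⟨h1, h2⟩ | ⟨h1, h2⟩
  · exact Or.inr ⟨key2 _ h2, key1 _ h1⟩
  · exact Or.inl ⟨key2 _ h2, key1 _ h1⟩

lemma rho_pairRel (N : NodalEq W s d b) (C : V.Core d b h) :
    S05H27.PairRel (rho (W := W) V s h) (h + h) := fun P Q => rel_simN (rho_rel N C P Q)

omit [CharZero K] in
lemma rho_eq_zero_iff_notM (hh : 0 < h) {T : W.Point} (hT : T ≠ 0) (h0 : rho V s h T = 0) :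
    V.NotM (xi s T) := by
  rw [rho_of_ne hT] at h0
  by_cases hx : xi s T = 0
  · rw [AVal.cl_of_ge hh (Or.inl hx)] at h0
    exact absurd h0 hh.ne'
  · refine ⟨hx, ?_⟩
    rw [AVal.cl_of_ex (AVal.ex_of_ne hx)] at h0
    grind

end

section Final

variable {K : Type*} [Field K] [DecidableEq K] [CharZero K]
  {Γ₀ : Type*} [LinearOrderedCommGroupWithZero Γ₀]

/-- (C*): the nodal translation theorem, stated for a multiplicative valuation. -/
theorem nodal_translate (v : Valuation K Γ₀) (W : WeierstrassCurve.Affine K) (s d b e : K)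
    (p : ℕ) (N : NodalEq W s d b)
    (h2 : v 2 = 1) (hb : v b = 1) (hd : v d = v e ^ p) (he : v e < 1) (he0 : e ≠ 0)
    (hp : Odd p)
    (X : W.Point) (hX : X ≠ 0) (hpX : p • X = 0) (hξ : v (xi s X) < 1) :
    ∃ M : ℕ, 0 < M ∧ M < p ∧ ∀ Z : W.Point, Z ≠ 0 → xi s Z = e ^ M →
      ((X - Z = 0 ∨ 1 ≤ v (xi s (X - Z))) ∨ (X + Z = 0 ∨ 1 ≤ v (xi s (X + Z)))) := by
  classical
  set V := S05H27.ofValuation v with hV
  have hp0 : 0 < p := hp.pos
  have hπ : 0 < V.w e := (S05H27.zero_lt_w_iff v he0).mpr he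
  have hdex : V.Ex d (p • V.w e) := (S05H27.eq_pow_iff_ex v he0 p).mp hd
  set h := p • V.w e with hh_def
  have hh : 0 < h := nsmul_pos hπ hp0.ne'
  have C : V.Core d b h :=
    ⟨(S05H27.eq_one_iff_ex v 2).mp h2, (S05H27.eq_one_iff_ex v b).mp hb, hdex, hh⟩
  -- torsion gives integrality of rho X
  obtain ⟨m, hm⟩ := S05H27.rho_pow_of_torsion (rho (W := W) V s h) (h + h) rho_zero
    (rho_pairRel N C) X p hpX
  have hN : h + h = (2 * p * 1) • V.w e := by
    rw [hh_def, mul_one, mul_smul, two_nsmul]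
  rw [hN] at hm
  have hroot := S05H27.root_extract (rho V s h X) (V.w e) p 1 hp0 m hm
  -- rho X > 0
  have hgt : V.Gt (xi s X) 0 := (S05H27.lt_one_iff_gt v _).mp hξ
  have hρpos : 0 < rho V s h X := by
    rw [rho_of_ne hX]
    by_cases hx : xi s X = 0
    · rw [AVal.cl_of_ge hh (Or.inl hx)]; exact hh
    · rw [AVal.cl_of_ex (AVal.ex_of_ne hx)]
      have := hgt.lt_of_ne hx
      grind
  obtain ⟨M, hM0, hM⟩ := S05H27.exists_nat_of_zsmul_pos hπ hρpos hroot
  have hρle : rho V s h X ≤ h := rho_le hh X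
  -- M ≤ p and M ≠ p
  have hMle : M ≤ p := by
    by_contra hcon
    rw [not_le] at hcon
    have : p • V.w e < M • V.w e := nsmul_lt_nsmul_left hπ hcon
    rw [← hM] at this
    exact absurd hρle (not_le.mpr this)
  have hMne : M ≠ p := by
    intro hMp
    -- M • π = (2m) • π forces (M : ℤ) = 2 m
    have h1 : ((M : ℤ) - 2 * 1 * m) • V.w e = 0 := by
      rw [sub_smul, natCast_zsmul, ← hM, hroot]
      simp
    have h3 : (M : ℤ) - 2 * 1 * m = 0 := by
      rcases smul_eq_zero.mp h1 with h4 | h4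
      · exact h4
      · exact absurd h4 hπ.ne'
    have : (p : ℤ) = 2 * m := by rw [← hMp]; linarith
    obtain ⟨k, hk⟩ := hp
    omega
  refine ⟨M, hM0, lt_of_le_of_ne hMle hMne, ?_⟩
  intro Z hZ hZξ
  have hZex : V.Ex (xi s Z) (M • V.w e) := by
    rw [hZξ]; exact (AVal.ex_of_ne he0).pow M
  have hρZ : rho V s h Z = rho V s h X := by
    rw [rho_of_ne hZ, AVal.cl_of_ex hZex, hM]
    rw [hM] at hρpos hρle
    grind
  have hrel := rho_rel N C X Z
  rw [hρZ] at hrel
  have key : ∀ T : W.Point, rho V s h T = 0 → (T = 0 ∨ 1 ≤ v (xi s T)) := by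
    intro T hT
    by_cases hT0 : T = 0
    · exact Or.inl hT0
    · exact Or.inr ((S05H27.one_le_iff_notM v _).mpr (rho_eq_zero_iff_notM hh hT0 hT))
  rcases hrel with ⟨h1, _⟩ | ⟨h1, _⟩
  · right
    apply key
    rw [h1]; grind
  · left
    apply key
    rw [h1]; grind

end Final

end S05H65
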