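import Fermat.Agent.S05.H65.Core

/-!
# The component function near a node: doubling
-/

set_option autoImplicit false

namespace S05H65

namespace AVal

variable {K : Type*} [Field K] {G : Type*} [AddCommGroup G] [LinearOrder G] [IsOrderedAddMonoid G]
variable {V : AVal K G} {δ b₀ : K} {h : G}

/-- Doubling: if `r · 4(ξ²-δ²)(ξ+b₀) = (ξ²+δ²)² + 4δ²b₀(2ξ+b₀)` and the denominator is nonzero,
then `cl r = min (2a) (2h - 2a)` where `a = cl ξ`. -/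
theorem dbl_rel (C : V.Core δ b₀ h) {ξ r : K}
    (hden : (ξ ^ 2 - δ ^ 2) * (ξ + b₀) ≠ 0)
    (hr : r * (4 * (ξ ^ 2 - δ ^ 2) * (ξ + b₀))
      = (ξ ^ 2 + δ ^ 2) ^ 2 + 4 * δ ^ 2 * b₀ * (2 * ξ + b₀)) :
    V.cl h r = min (V.cl h ξ + V.cl h ξ) (h + h - V.cl h ξ - V.cl h ξ) := by
  have hh := C.hh
  have hd1 : ξ ^ 2 - δ ^ 2 ≠ 0 := left_ne_zero_of_mul hden
  have hd2 : ξ + b₀ ≠ 0 := right_ne_zero_of_mul hden
  have hden' : 4 * (ξ ^ 2 - δ ^ 2) * (ξ + b₀) ≠ 0 :=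
    mul_ne_zero (mul_ne_zero C.ex_four.1 hd1) hd2
  have hre : r = ((ξ ^ 2 + δ ^ 2) ^ 2 + 4 * δ ^ 2 * b₀ * (2 * ξ + b₀))
      / (4 * (ξ ^ 2 - δ ^ 2) * (ξ + b₀)) := by
    rw [← hr, mul_div_cancel_right₀ _ hden']
  rcases regime V h ξ with ⟨α, h1, hα⟩ | ⟨α, h1, hα, hα'⟩ | h1
  · -- L
    have hsq : V.Ex (ξ ^ 2) (α + α) := h1.sq
    have hE1 : V.Ex (ξ ^ 2 - δ ^ 2) (α + α) := hsq.sub_gt (C.ex_δsq.gt' (by grind))
    have hE3 : V.Ex (ξ ^ 2 + δ ^ 2) (α + α) := hsq.add_gt (C.ex_δsq.gt' (by grind))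
    have hE4ge : V.Ge (ξ + b₀) α := h1.ge.add (C.hb₀.ge' hα)
    have hE4 : V.Ex (ξ + b₀) (V.w (ξ + b₀)) := ex_of_ne hd2
    have hE4le := hE4ge.le_of_ne hd2
    have hE5 : V.Ge (2 * ξ + b₀) α :=
      ((C.h2.mul h1).ge' (by grind)).add (C.hb₀.ge' hα)
    have hden : V.Ex (4 * (ξ ^ 2 - δ ^ 2) * (ξ + b₀)) (0 + (α + α) + V.w (ξ + b₀)) :=
      (C.ex_four.mul hE1).mul hE4
    have hnum : V.Ex ((ξ ^ 2 + δ ^ 2) ^ 2 + 4 * δ ^ 2 * b₀ * (2 * ξ + b₀))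
        (α + α + (α + α)) :=
      hE3.sq.add_gt ((C.ex_coef.mul_ge hE5).gt (by grind))
    have hrr := hnum.div hden
    rw [← hre] at hrr
    rw [cl_of_notM hh (hrr.notM (by grind)), cl_of_ex h1]
    grind
  · -- M
    have g1 : V.Gt ξ 0 := h1.gt' hα
    have hsq : V.Ex (ξ ^ 2) (α + α) := h1.sq
    have hE1 : V.Ex (ξ ^ 2 - δ ^ 2) (α + α) := hsq.sub_gt (C.ex_δsq.gt' (by grind))
    have hE3 : V.Ex (ξ ^ 2 + δ ^ 2) (α + α) := hsq.add_gt (C.ex_δsq.gt' (by grind))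
    have hE4 : V.Ex (ξ + b₀) 0 := C.hb₀.gt_add g1
    have hE5 : V.Ex (2 * ξ + b₀) 0 := C.hb₀.gt_add ((C.h2.mul h1).gt' (by grind))
    have hden : V.Ex (4 * (ξ ^ 2 - δ ^ 2) * (ξ + b₀)) (0 + (α + α) + 0) :=
      (C.ex_four.mul hE1).mul hE4
    have h2nd : V.Ex (4 * δ ^ 2 * b₀ * (2 * ξ + b₀)) (h + h + 0) := C.ex_coef.mul hE5
    rcases lt_trichotomy (α + α) h with hlt | heq | hgt
    · have hnum : V.Ex ((ξ ^ 2 + δ ^ 2) ^ 2 + 4 * δ ^ 2 * b₀ * (2 * ξ + b₀))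
          (α + α + (α + α)) := hE3.sq.add_gt (h2nd.gt' (by grind))
      have hrr := hnum.div hden
      rw [← hre] at hrr
      rw [cl_of_ex hrr, cl_of_ex h1]
      grind
    · have hnum : V.Ge ((ξ ^ 2 + δ ^ 2) ^ 2 + 4 * δ ^ 2 * b₀ * (2 * ξ + b₀)) (h + h) :=
        (hE3.sq.ge' (by grind)).add (h2nd.ge' (by grind))
      have hrr := hnum.div hden
      rw [← hre] at hrr
      rw [cl_of_ge hh (hrr.mono (by grind)), cl_of_ex h1]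
      grind
    · have hnum : V.Ex ((ξ ^ 2 + δ ^ 2) ^ 2 + 4 * δ ^ 2 * b₀ * (2 * ξ + b₀)) (h + h + 0) :=
        h2nd.gt_add (hE3.sq.gt' (by grind))
      have hrr := hnum.div hden
      rw [← hre] at hrr
      rw [cl_of_ex hrr, cl_of_ex h1]
      grind
  · -- R
    have g1 : V.Gt ξ 0 := h1.gt hh
    have hE1ge : V.Ge (ξ ^ 2 - δ ^ 2) (h + h) := h1.sq.sub C.ex_δsq.ge
    have hE1 : V.Ex (ξ ^ 2 - δ ^ 2) (V.w (ξ ^ 2 - δ ^ 2)) := ex_of_ne hd1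
    have hE1le := hE1ge.le_of_ne hd1
    have hE3 : V.Ge (ξ ^ 2 + δ ^ 2) (h + h) := h1.sq.add C.ex_δsq.ge
    have hE4 : V.Ex (ξ + b₀) 0 := C.hb₀.gt_add g1
    have hE5 : V.Ex (2 * ξ + b₀) 0 := C.hb₀.gt_add ((C.h2.ge.mul_gt g1).mono (by grind))
    have hden : V.Ex (4 * (ξ ^ 2 - δ ^ 2) * (ξ + b₀)) (0 + V.w (ξ ^ 2 - δ ^ 2) + 0) :=
      (C.ex_four.mul hE1).mul hE4
    have h2nd : V.Ex (4 * δ ^ 2 * b₀ * (2 * ξ + b₀)) (h + h + 0) := C.ex_coef.mul hE5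
    have hnum : V.Ex ((ξ ^ 2 + δ ^ 2) ^ 2 + 4 * δ ^ 2 * b₀ * (2 * ξ + b₀)) (h + h + 0) :=
      h2nd.gt_add (hE3.sq.gt (by grind))
    have hrr := hnum.div hden
    rw [← hre] at hrr
    rw [cl_of_notM hh (hrr.notM (by grind)), cl_of_ge hh h1]
    grind

end AVal

end S05H65
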