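import Fermat.Agent.S05.H65.Sym
import Fermat.Agent.S05.H65.Dbl

/-!
# The component function `rho` on points of a nodal Weierstrass model
-/

set_option autoImplicit false

namespace S05H65

open WeierstrassCurve

section XiFormulas

variable {K : Type*} [Field K] [DecidableEq K] [CharZero K] {W : WeierstrassCurve.Affine K}

/-- The shifted and scaled x-coordinate `ξ = 4x - s`. -/
def xi (s : K) (P : W.Point) : K := 4 * px P - s

omit [CharZero K] in
@[simp] lemma xi_neg (s : K) (P : W.Point) : xi s (-P) = xi s P := by simp [xi]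

/-- Hypotheses linking the curve to the nodal normal form `16ψ₂² = (ξ² - d²)(ξ + b)`. -/
structure NodalEq (W : WeierstrassCurve.Affine K) (s d b : K) : Prop where
  hb₂ : W.b₂ = b - 3 * s
  hb₄ : 8 * W.b₄ = 3 * s ^ 2 - 2 * s * b - d ^ 2
  hb₆ : 16 * W.b₆ = (s ^ 2 - d ^ 2) * (b - s)

variable {s d b : K} (N : NodalEq W s d b)
include N

lemma NodalEq.b₄_eq : W.b₄ = (3 * s ^ 2 - 2 * s * b - d ^ 2) / 8 := by
  have := N.hb₄
  field_simp
  linear_combination this

lemma NodalEq.b₆_eq : W.b₆ = (s ^ 2 - d ^ 2) * (b - s) / 16 := by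
  have := N.hb₆
  field_simp
  linear_combination this

lemma NodalEq.b₈_eq : W.b₈ = (W.b₂ * W.b₆ - W.b₄ ^ 2) / 4 := by
  have := W.b_relation
  field_simp
  linear_combination this

lemma NodalEq.psi2sq_eq (x : K) :
    16 * psi2sq W x = ((4 * x - s) ^ 2 - d ^ 2) * (4 * x - s + b) := by
  simp only [psi2sq]
  rw [N.b₄_eq, N.b₆_eq, N.hb₂]
  ring

lemma NodalEq.dupNum_eq (x : K) :
    256 * dupNum W x - 64 * s * psi2sq W x
      = ((4 * x - s) ^ 2 + d ^ 2) ^ 2 + 4 * d ^ 2 * b * (2 * (4 * x - s) + b) := by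
  simp only [psi2sq, dupNum]
  rw [N.b₈_eq, N.b₄_eq, N.b₆_eq, N.hb₂]
  ring

theorem xi_sum {P Q : W.Point} (hP : P ≠ 0) (hQ : Q ≠ 0) (h : px P ≠ px Q) :
    (xi s (P + Q) + xi s (P - Q)) * (xi s P - xi s Q) ^ 2
      = 2 * (xi s P * xi s Q - d ^ 2) * (xi s P + xi s Q + 2 * b) := by
  have h1 := px_add_add_px_sub hP hQ h
  rw [N.b₄_eq, N.b₆_eq, N.hb₂] at h1
  simp only [xi]
  linear_combination 64 * h1

theorem xi_prod {P Q : W.Point} (hP : P ≠ 0) (hQ : Q ≠ 0) (h : px P ≠ px Q) :
    (xi s (P + Q) * xi s (P - Q)) * (xi s P - xi s Q) ^ 2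
      = (xi s P * xi s Q + d ^ 2) ^ 2 + 4 * d ^ 2 * b * (xi s P + xi s Q + b) := by
  have h1 := px_add_add_px_sub hP hQ h
  have h2 := px_add_mul_px_sub hP hQ h
  rw [N.b₈_eq, N.b₄_eq, N.b₆_eq, N.hb₂] at h2
  rw [N.b₄_eq, N.b₆_eq, N.hb₂] at h1
  simp only [xi]
  linear_combination 256 * h2 - 64 * s * h1

theorem xi_dup {P : W.Point} (hP : P ≠ 0) (h2 : P + P ≠ 0) :
    xi s (P + P) * (4 * (xi s P ^ 2 - d ^ 2) * (xi s P + b))
      = (xi s P ^ 2 + d ^ 2) ^ 2 + 4 * d ^ 2 * b * (2 * xi s P + b) := by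
  have h1 := px_add_self hP h2
  have h3 := N.psi2sq_eq (px P)
  have h4 := N.dupNum_eq (px P)
  simp only [xi]
  linear_combination 256 * h1 - 4 * (4 * px (P + P) - s) * h3 + h4

theorem add_self_eq_zero_iff_xi {P : W.Point} (hP : P ≠ 0) :
    P + P = 0 ↔ (xi s P ^ 2 - d ^ 2) * (xi s P + b) = 0 := by
  rw [add_self_eq_zero_iff hP]
  have h3 := N.psi2sq_eq (px P)
  simp only [xi]
  constructor
  · intro h0
    rw [h0, mul_zero] at h3
    exact h3.symm
  · intro h0
    rw [h0] at h3
    have h16 : (16 : K) ≠ 0 := by norm_num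
    exact (mul_eq_zero.mp h3).resolve_left h16

end XiFormulas

end S05H65

namespace S05H65

open WeierstrassCurve

section Rho

variable {K : Type*} [Field K] [DecidableEq K] [CharZero K]
  {G : Type*} [AddCommGroup G] [LinearOrder G] [IsOrderedAddMonoid G]
  {W : WeierstrassCurve.Affine K} {V : AVal K G} {s d b : K} {h : G}

/-- The component function: `0` on the identity component, otherwise the clamped valuation
of `ξ = 4x - s`. -/
noncomputable def rho (V : AVal K G) (s : K) (h : G) (P : W.Point) : G :=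
  if P = 0 then 0 else V.cl h (xi s P)

omit [CharZero K] in
@[simp] lemma rho_zero : rho V s h (0 : W.Point) = 0 := by simp [rho]

omit [CharZero K] in
lemma rho_of_ne {P : W.Point} (hP : P ≠ 0) : rho V s h P = V.cl h (xi s P) := by
  simp [rho, hP]

omit [CharZero K] in
@[simp] lemma rho_neg (P : W.Point) : rho V s h (-P) = rho V s h P := by
  simp [rho]

omit [CharZero K] in
lemma rho_nonneg (hh : 0 < h) (P : W.Point) : 0 ≤ rho V s h P := by
  unfold rho
  split_ifs
  · exact le_refl _
  · exact AVal.cl_nonneg hh _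

omit [CharZero K] in
lemma rho_le (hh : 0 < h) (P : W.Point) : rho V s h P ≤ h := by
  unfold rho
  split_ifs
  · exact hh.le
  · exact AVal.cl_le hh _

/-- `rho (P + P) = min (2a) (2h - 2a)` where `a = rho P`. -/
theorem rho_dbl (N : NodalEq W s d b) (C : V.Core d b h) (P : W.Point) :
    rho V s h (P + P) = min (rho V s h P + rho V s h P) (h + h - rho V s h P - rho V s h P) := by
  have hh := C.hh
  by_cases hP : P = 0
  · subst hP
    simp only [add_zero, rho_zero]
    grind
  by_cases h2 : P + P = 0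
  · rw [h2, rho_zero, rho_of_ne hP]
    have h0 := (add_self_eq_zero_iff_xi N hP).mp h2
    rcases mul_eq_zero.mp h0 with h1 | h1
    · -- ξ² = d²
      have hex : V.Ex (xi s P ^ 2) (h + h) := by
        have : xi s P ^ 2 = d ^ 2 := sub_eq_zero.mp h1
        rw [this]; exact C.ex_δsq
      have hx0 : xi s P ≠ 0 := by
        intro h0'
        rw [h0'] at hex
        exact hex.1 (by simp)
      have hex' : V.Ex (xi s P) (V.w (xi s P)) := AVal.ex_of_ne hx0
      have := hex'.sq.unique hex
      rw [AVal.cl_of_ex hex']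
      grind
    · -- ξ = -b
      have hex : V.Ex (xi s P) 0 := by
        have : xi s P = -b := eq_neg_of_add_eq_zero_left h1
        rw [this]; exact C.hb₀.neg
      rw [AVal.cl_of_ex hex]
      grind
  · rw [rho_of_ne h2, rho_of_ne hP]
    have hden : (xi s P ^ 2 - d ^ 2) * (xi s P + b) ≠ 0 := fun h0 =>
      h2 ((add_self_eq_zero_iff_xi N hP).mpr h0)
    exact AVal.dbl_rel C hden (xi_dup N hP h2)

/-- The fundamental relation satisfied by the component function. -/
theorem rho_rel (N : NodalEq W s d b) (C : V.Core d b h) (P Q : W.Point) :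
    AVal.Rel h (rho V s h P) (rho V s h Q) (rho V s h (P + Q)) (rho V s h (P - Q)) := by
  have hh := C.hh
  by_cases hP : P = 0
  · subst hP
    have h1 := rho_nonneg (V := V) (s := s) hh Q
    have h2 := rho_le (V := V) (s := s) hh Q
    simp only [zero_add, zero_sub, rho_neg, rho_zero]
    unfold AVal.Rel; grind
  by_cases hQ : Q = 0
  · subst hQ
    have h1 := rho_nonneg (V := V) (s := s) hh P
    have h2 := rho_le (V := V) (s := s) hh P
    simp only [add_zero, sub_zero, rho_zero]
    unfold AVal.Rel; grind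
  by_cases hx : px P = px Q
  · rcases eq_or_eq_neg_of_px_eq hP hQ hx with rfl | rfl
    · have := rho_dbl (V := V) N C P
      rw [sub_self, rho_zero, this]
      unfold AVal.Rel; grind
    · have := rho_dbl (V := V) N C Q
      rw [neg_add_cancel, rho_zero, show -Q - Q = -(Q + Q) by abel, rho_neg, rho_neg, this]
      unfold AVal.Rel; grind
  · have hadd : P + Q ≠ 0 := add_ne_zero_of_px_ne hx hP hQ
    have hsub : P - Q ≠ 0 := sub_ne_zero_of_px_ne hx
    rw [rho_of_ne hP, rho_of_ne hQ, rho_of_ne hadd, rho_of_ne hsub]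
    have hne : xi s P ≠ xi s Q := by
      intro h0
      simp only [xi] at h0
      have h4 : (4 : K) ≠ 0 := by norm_num
      exact hx (mul_left_cancel₀ h4 (sub_left_injective h0))
    exact AVal.main_rel C hne (xi_sum N hP hQ hx) (xi_prod N hP hQ hx)

end Rho

end S05H65
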