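import Fermat.Agent.S05.H65.AddVal

/-!
# Valuations of the two roots of a quadratic from the valuations of its sum and product
-/

set_option autoImplicit false

namespace S05H65

namespace AVal

variable {K : Type*} [Field K] {G : Type*} [AddCommGroup G] [LinearOrder G] [IsOrderedAddMonoid G]
  {V : AVal K G}

/-- `x` is a unit or has negative valuation ("not in the maximal ideal"). -/
def NotM (V : AVal K G) (x : K) : Prop := x ≠ 0 ∧ V.w x ≤ 0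

lemma Ex.notM {x : K} {g : G} (hx : V.Ex x g) (hg : g ≤ 0) : V.NotM x := ⟨hx.1, hx.2 ▸ hg⟩

variable {r₁ r₂ S P : K}

lemma vieta_split {σ π : G} (hS : r₁ + r₂ = S) (hP : r₁ * r₂ = P)
    (hσ : V.Ex S σ) (hπ : V.Ex P π) (hlt : σ + σ < π) :
    (V.Ex r₁ σ ∧ V.Ex r₂ (π - σ)) ∨ (V.Ex r₂ σ ∧ V.Ex r₁ (π - σ)) := by
  have h1 : r₁ ≠ 0 := by rintro rfl; rw [zero_mul] at hP; exact hπ.1 hP.symm
  have h2 : r₂ ≠ 0 := by rintro rfl; rw [mul_zero] at hP; exact hπ.1 hP.symm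
  have hsum : V.w r₁ + V.w r₂ = π := by rw [← V.w_mul h1 h2, hP, hπ.2]
  have hS0 : r₁ + r₂ ≠ 0 := hS ▸ hσ.1
  have hSw : V.w (r₁ + r₂) = σ := by rw [hS]; exact hσ.2
  rcases lt_trichotomy (V.w r₁) (V.w r₂) with hlt' | heq | hgt
  · left
    obtain ⟨_, h4⟩ := V.w_add_eq_left h1 h2 hlt'
    refine ⟨⟨h1, by grind⟩, ⟨h2, by grind⟩⟩
  · exfalso
    have := V.w_add_ge h1 h2 hS0
    grind
  · right
    obtain ⟨_, h4⟩ := V.w_add_eq_left h2 h1 hgt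
    rw [add_comm] at h4
    refine ⟨⟨h2, by grind⟩, ⟨h1, by grind⟩⟩

lemma vieta_split_le {σ π : G} (hS : r₁ + r₂ = S) (hP : r₁ * r₂ = P)
    (hσ : V.Ex S σ) (hπ : V.Ge P π) (hlt : σ + σ < π) :
    (V.Ex r₁ σ ∧ V.Ge r₂ (π - σ)) ∨ (V.Ex r₂ σ ∧ V.Ge r₁ (π - σ)) := by
  by_cases hP0 : P = 0
  · rw [hP0] at hP
    rcases mul_eq_zero.mp hP with h | h
    · right
      refine ⟨?_, Or.inl h⟩
      rw [h, zero_add] at hS
      exact hS ▸ hσ
    · left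
      refine ⟨?_, Or.inl h⟩
      rw [h, add_zero] at hS
      exact hS ▸ hσ
  · have hπ' : V.Ex P (V.w P) := ⟨hP0, rfl⟩
    have hle := hπ.le_of_ne hP0
    rcases vieta_split hS hP hσ hπ' (lt_of_lt_of_le hlt hle) with ⟨h1, h2⟩ | ⟨h1, h2⟩
    · exact Or.inl ⟨h1, h2.ge' (by grind)⟩
    · exact Or.inr ⟨h1, h2.ge' (by grind)⟩

lemma vieta_low {c : G} (hS : r₁ + r₂ = S) (hP : r₁ * r₂ = P)
    (hσ : V.Ge S c) (hπ : V.Ge P (c + c)) : V.Ge r₁ c ∧ V.Ge r₂ c := by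
  -- auxiliary one-sided statement
  have aux : ∀ a b : K, a + b = S → a * b = P → V.Ge a c := by
    intro a b hab habP
    by_contra hcon
    have ha0 : a ≠ 0 := fun h => hcon (Or.inl h)
    have hac : V.w a < c := by
      by_contra h'
      exact hcon (Or.inr (not_lt.mp h'))
    by_cases hb0 : b = 0
    · rw [hb0, add_zero] at hab
      have := (hab ▸ hσ).le_of_ne ha0
      grind
    · have hP0 : P ≠ 0 := habP ▸ mul_ne_zero ha0 hb0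
      have h1 := hπ.le_of_ne hP0
      rw [← habP, V.w_mul ha0 hb0] at h1
      have hlt : V.w a < V.w b := by grind
      obtain ⟨h3, h4⟩ := V.w_add_eq_left ha0 hb0 hlt
      have h5 := hσ.le_of_ne (hab ▸ h3)
      rw [← hab] at h5
      grind
  exact ⟨aux r₁ r₂ hS hP, aux r₂ r₁ (by rw [add_comm]; exact hS) (by rw [mul_comm]; exact hP)⟩

lemma vieta_eq {c : G} (hS : r₁ + r₂ = S) (hP : r₁ * r₂ = P)
    (hσ : V.Ge S c) (hπ : V.Ex P (c + c)) : V.Ex r₁ c ∧ V.Ex r₂ c := by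
  have h1 : r₁ ≠ 0 := by rintro rfl; rw [zero_mul] at hP; exact hπ.1 hP.symm
  have h2 : r₂ ≠ 0 := by rintro rfl; rw [mul_zero] at hP; exact hπ.1 hP.symm
  have hsum : V.w r₁ + V.w r₂ = c + c := by rw [← V.w_mul h1 h2, hP, hπ.2]
  obtain ⟨h3, h4⟩ := vieta_low hS hP hσ hπ.ge
  have h5 := h3.le_of_ne h1
  have h6 := h4.le_of_ne h2
  exact ⟨⟨h1, by grind⟩, ⟨h2, by grind⟩⟩

lemma vieta_high {π : G} (hS : r₁ + r₂ = S) (hP : r₁ * r₂ = P)
    (hσ : V.Ge S π) (hπ : V.Ex P π) (hπ0 : π ≤ 0) : V.NotM r₁ ∧ V.NotM r₂ := by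
  have h1 : r₁ ≠ 0 := by rintro rfl; rw [zero_mul] at hP; exact hπ.1 hP.symm
  have h2 : r₂ ≠ 0 := by rintro rfl; rw [mul_zero] at hP; exact hπ.1 hP.symm
  have hsum : V.w r₁ + V.w r₂ = π := by rw [← V.w_mul h1 h2, hP, hπ.2]
  have aux : ∀ a b : K, a ≠ 0 → b ≠ 0 → a + b = S → V.w a + V.w b = π → V.w a ≤ 0 := by
    intro a b ha0 hb0 hab hw
    by_contra hcon
    have hlt : V.w b < V.w a := by grind
    obtain ⟨h3, h4⟩ := V.w_add_eq_left hb0 ha0 hlt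
    rw [add_comm] at h3 h4
    have h5 := hσ.le_of_ne (hab ▸ h3)
    rw [← hab] at h5
    grind
  exact ⟨⟨h1, aux r₁ r₂ h1 h2 hS hsum⟩,
    ⟨h2, aux r₂ r₁ h2 h1 (by rw [add_comm]; exact hS) (by rw [add_comm]; exact hsum)⟩⟩

end AVal

end S05H65
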